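import Fermat.Agent.Pic.Rep.Affine
import Fermat.Agent.Pic.Rep.OfPoints
import Fermat.Agent.Pic.Field.General

/-!
# The degree of a line bundle on the curve over a connected base

The degree is locally constant on affine bases, hence constant on connected ones.
-/

set_option autoImplicit false

noncomputable section

universe u

open CategoryTheory CategoryTheory.Limits AlgebraicGeometry NeronModelInfra
  AlgebraicGeometry.RelPicard

namespace FermatAgent.Pic

variable {k : Type u} [Field k]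

/-- Every point of a scheme over `k` lies under a geometric point. -/
theorem exists_geom_point {T : Scheme.{u}} (x : T ⟶ Spec (CommRingCat.of k)) (p : T) :
    ∃ (K : Type u) (_ : Field K) (_ : Algebra k K) (_ : IsAlgClosed K)
      (y : SchemeHomOver (tA (k := k) K) x), y.1 (IsLocalRing.closedPoint K) = p := by
  let K := AlgebraicClosure (T.residueField p)
  let j : Spec (CommRingCat.of K) ⟶ T :=
    Spec.map (CommRingCat.ofHom (algebraMap (T.residueField p) K)) ≫ T.fromSpecResidueField p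
  let _ : Algebra k K := (Spec.preimage (j ≫ x)).hom.toAlgebra
  have hj : j ≫ x = tA (k := k) K := by
    show _ = Spec.map (Spec.preimage (j ≫ x))
    rw [Spec.map_preimage]
  exact ⟨K, inferInstance, inferInstance, inferInstance, ⟨j, hj⟩, T.fromSpecResidueField_apply p _⟩

namespace Bridge

variable {C : Scheme.{u}} {c : C ⟶ Spec (CommRingCat.of k)}
  {ε : SchemeHomOver (𝟙 (Spec (CommRingCat.of k))) c} {P : Pres c ε} (B : Bridge P)
  {T : Scheme.{u}} {x : T ⟶ Spec (CommRingCat.of k)}
  {N : (pullback c x).Modules} (hN : Scheme.Modules.IsInvertible N)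

/-- The bundle at a point of an invertible module on the product with the curve. -/
def fibreBdl {A : Type u} [CommRing A] [Algebra k A] (y : SchemeHomOver (tA (k := k) A) x) :
    Bdl P.X A :=
  B.toBdl A ((Scheme.Modules.pullback (baseChangeSnd c y)).obj N) (hN.pullback _)

theorem fibreBdl_map {A A' : Type u} [CommRing A] [Algebra k A] [CommRing A'] [Algebra k A']
    (f : A →ₐ[k] A') (y : SchemeHomOver (tA (k := k) A) x)
    (y' : SchemeHomOver (tA (k := k) A') x) (h : y'.1 = (overAlg f).1 ≫ y.1) :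
    B.fibreBdl hN y' ≈ (B.fibreBdl hN y).map f := by
  obtain rfl : y' = postComp y (overAlg f) := Subtype.ext h
  refine Setoid.trans ((B.iso_iff _ _ _ _ _).mpr ?_)
    (B.pullback_map A A' f _ (hN.pullback _))
  exact ⟨((Scheme.Modules.pullbackComp _ _).app N ≪≫
    (Scheme.Modules.pullbackCongr (baseChangeSnd_comp c y (overAlg f))).app N).symm⟩

variable [IsAlgClosed k]

/-- Near every geometric point the degree of the fibres is constant. -/
theorem exists_nhd_fibreBdl {K : Type u} [Field K] [Algebra k K] [IsAlgClosed K]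
    (y : SchemeHomOver (tA (k := k) K) x) :
    ∃ V : T.Opens, y.1 (IsLocalRing.closedPoint K) ∈ V ∧
      ∀ (K' : Type u) [Field K'] [Algebra k K'] [IsAlgClosed K']
        (y' : SchemeHomOver (tA (k := k) K') x), y'.1 (IsLocalRing.closedPoint K') ∈ V →
        (B.fibreBdl hN y').deg = (B.fibreBdl hN y).deg := by
  obtain ⟨U, hU, hyU, -⟩ := exists_isAffineOpen_mem_and_subset
    (x := y.1 (IsLocalRing.closedPoint K)) (U := ⊤) trivial
  let _ := openAlgebra (x := x) U hU
  let o : SchemeHomOver (tA (k := k) Γ(T, U)) x := openPoint U hU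
  have fac : ∀ (K' : Type u) [Field K'] [Algebra k K'] (y' : SchemeHomOver (tA (k := k) K') x),
      y'.1 (IsLocalRing.closedPoint K') ∈ U →
      ∃ f : Γ(T, U) →ₐ[k] K', y'.1 = (overAlg f).1 ≫ o.1 := by
    intro K' _ _ y' hy'
    have hr : Set.range y'.1 ⊆ Set.range hU.fromSpec := by
      rw [hU.range_fromSpec]
      rintro _ ⟨z, rfl⟩
      rwa [Subsingleton.elim z (IsLocalRing.closedPoint K')]
    obtain ⟨f, hf⟩ := exists_overAlg (A := Γ(T, U)) (A' := K')
      ⟨IsOpenImmersion.lift hU.fromSpec y'.1 hr, by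
        rw [← tA_open (x := x) U hU, IsOpenImmersion.lift_fac_assoc, y'.2]⟩
    exact ⟨f, by rw [hf]; exact (IsOpenImmersion.lift_fac _ _ _).symm⟩
  have mem : ∀ (K' : Type u) [Field K'] [Algebra k K'] (f : Γ(T, U) →ₐ[k] K') (r : Γ(T, U)),
      hU.fromSpec ((overAlg f).1 (IsLocalRing.closedPoint K')) ∈ T.basicOpen r ↔ f r ≠ 0 := by
    intro K' _ _ f r
    show (overAlg f).1 (IsLocalRing.closedPoint K') ∈ hU.fromSpec ⁻¹ᵁ T.basicOpen r ↔ _
    rw [hU.fromSpec_preimage_basicOpen]
    show r ∉ Ideal.comap f.toRingHom (IsLocalRing.maximalIdeal K') ↔ _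
    rw [Ideal.mem_comap, IsLocalRing.mem_maximalIdeal, mem_nonunits_iff, not_not,
      isUnit_iff_ne_zero]
    rfl
  obtain ⟨f, hf⟩ := fac K y hyU
  have := RingHom.ker_isPrime (f : Γ(T, U) →+* K)
  obtain ⟨r, d, hr, hd⟩ :=
    Bdl.exists_hasDeg_near (B.fibreBdl hN o) (RingHom.ker (f : Γ(T, U) →+* K))
  refine ⟨T.basicOpen r, ?_, fun K' _ _ _ y' hy' => ?_⟩
  · rw [hf]; exact (mem K f r).mpr hr
  · obtain ⟨f', hf'⟩ := fac K' y' (T.basicOpen_le r hy')
    rw [Bdl.deg_congr (B.fibreBdl_map hN f' o y' hf'), Bdl.deg_congr (B.fibreBdl_map hN f o y hf)]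
    refine (hd K' f' ((mem K' f' r).mp ?_)).trans (hd K f hr).symm
    rw [hf'] at hy'
    exact hy'

/-- On a connected base all geometric fibres have the same degree. -/
theorem deg_fibreBdl_eq [PreconnectedSpace T] {K K' : Type u} [Field K] [Algebra k K]
    [IsAlgClosed K] [Field K'] [Algebra k K'] [IsAlgClosed K']
    (y : SchemeHomOver (tA (k := k) K) x) (y' : SchemeHomOver (tA (k := k) K') x) :
    (B.fibreBdl hN y').deg = (B.fibreBdl hN y).deg := by
  let S : Set T := {p | ∃ (F : Type u) (_ : Field F) (_ : Algebra k F) (_ : IsAlgClosed F)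
    (z : SchemeHomOver (tA (k := k) F) x),
      z.1 (IsLocalRing.closedPoint F) = p ∧ (B.fibreBdl hN z).deg = (B.fibreBdl hN y).deg}
  have h1 : IsOpen S := by
    refine isOpen_iff_forall_mem_open.mpr ?_
    rintro p ⟨F, _, _, _, z, rfl, hz⟩
    obtain ⟨V, hV, hV'⟩ := B.exists_nhd_fibreBdl hN z
    refine ⟨V, fun q hq => ?_, V.2, hV⟩
    obtain ⟨F', iF, iA, iC, w, rfl⟩ := exists_geom_point x q
    exact ⟨F', iF, iA, iC, w, rfl, (hV' F' w hq).trans hz⟩
  have h2 : IsClosed S := by
    refine isOpen_compl_iff.mp (isOpen_iff_forall_mem_open.mpr fun p hp => ?_)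
    obtain ⟨F, iF, iA, iC, z, rfl⟩ := exists_geom_point x p
    obtain ⟨V, hV, hV'⟩ := B.exists_nhd_fibreBdl hN z
    refine ⟨V, ?_, V.2, hV⟩
    rintro q hq ⟨F', _, _, _, w, rfl, hw⟩
    exact hp ⟨F, iF, iA, iC, z, rfl, (hV' F' w hq).symm.trans hw⟩
  have h3 : S = Set.univ :=
    IsClopen.eq_univ ⟨h2, h1⟩ ⟨_, K, inferInstance, inferInstance, inferInstance, y, rfl, rfl⟩
  obtain ⟨F, _, _, _, z, hzp, hz⟩ : y'.1 (IsLocalRing.closedPoint K') ∈ S := by
    rw [h3]; trivial
  obtain ⟨V, hV, hV'⟩ := B.exists_nhd_fibreBdl hN z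
  exact (hV' K' y' (hzp ▸ hV)).trans hz

end Bridge

end FermatAgent.Pic

end
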