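import Fermat.Agent.Pic.Rep.Diff

/-!
# Points of bundles of degree zero which need not be rigid

Every bundle is rigid on an open cover of the base, so a bundle of degree zero has a unique point
of the universal family, compatible with all base changes after which it becomes rigid.
-/

set_option autoImplicit false

noncomputable section

universe u

open CategoryTheory CategoryTheory.Limits AlgebraicGeometry NeronModelInfra
  AlgebraicGeometry.RelPicard

namespace FermatAgent.Pic

variable {k : Type u} [Field k]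

namespace Bdl

variable {C : Curve2 k} {A B : Type u} [CommRing A] [Algebra k A] [CommRing B] [Algebra k B]

/-- A diagonal coordinate of the second lattice at a point. -/
def diagVal (E : Bdl C A) (P : C.R1 →ₐ[k] A) (i : Fin E.l1.n) : A :=
  C.pt1 A P (E.coord1 i ⟨E.l1.p i, E.p_mem_L1 i⟩)

theorem sum_coord1_mul (E : Bdl C A) (i : Fin E.l1.n) (m : E.L1) :
    ∑ j, E.coord1 i ⟨E.l1.p j, E.p_mem_L1 j⟩ * E.coord1 j m = E.coord1 i m := by
  refine (coord1_eq _ i _ ?_).symm
  rw [map_sum]
  refine Eq.trans ?_ (congrArg (E.l1.φ i) (E.l1.sum_eq m))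
  rw [map_sum]
  exact Finset.sum_congr rfl fun j _ => by
    rw [map_mul, res1_coord1, res1_coord1, map_smul, smul_eq_mul, mul_comm]

theorem isRigid_of_diag {E : Bdl C A} {P : C.R1 →ₐ[k] A} {i : Fin E.l1.n}
    (h : IsUnit (E.diagVal P i)) : E.IsRigid P := by
  refine IsRigid.mk' (fun j => C.pt1 A P (E.coord1 i ⟨E.l1.p j, E.p_mem_L1 j⟩))
    ⟨E.l1.p i, E.p_mem_L1 i⟩ ?_
  rw [lamOf_apply, ← Finset.sum_congr rfl fun j _ => map_mul (C.pt1 A P) _ _, ← map_sum,
    E.sum_coord1_mul]
  exact h

theorem sum_diagVal (E : Bdl C A) (P : C.R1 →ₐ[k] A) : ∑ i, E.diagVal P i = 1 := by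
  simp only [diagVal, ← map_sum]
  rw [show ∑ i, E.coord1 i ⟨E.l1.p i, E.p_mem_L1 i⟩ = 1 from C.res1_injective A (by
    rw [map_sum, map_one, ← E.sum_φ_p_L1]
    exact Finset.sum_congr rfl fun i _ => E.res1_coord1 i _), map_one]

theorem diag_map (f : A →ₐ[k] B) (E : Bdl C A) (P : C.R1 →ₐ[k] A) (i : Fin E.l1.n) :
    (E.map f).diagVal (f.comp P) i = f (E.diagVal P i) := by
  let := (C.map01 f).toRingHom.toAlgebra
  have h : C.res1 B (C.map1 f (E.coord1 i ⟨E.l1.p i, E.p_mem_L1 i⟩)) =
      (E.map f).l1.φ i ((E.map f).l1.p i) := by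
    show C.res1 B _ = (E.l1.φ i (E.l1.p i)) • (1 : C.S01 B)
    rw [Algebra.smul_def, mul_one]
    exact (C.map01_res1 f _).symm.trans (congrArg (C.map01 f) (E.res1_coord1 _ _))
  exact (congrArg (C.pt1 B (f.comp P)) (coord1_eq (E.map f) i _ h)).trans (C.pt1_map1 f P _)

theorem isRigid_map_of_diag (f : A →ₐ[k] B) (E : Bdl C A) (z : C.R1 →ₐ[k] k) {i : Fin E.l1.n}
    (h : IsUnit (f (E.diagVal (C.cst A z) i))) : (E.map f).IsRigid (C.cst B z) := by
  rw [← diag_map, C.comp_cst f z] at h
  exact isRigid_of_diag h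

/-- Over a field every bundle is rigid. -/
theorem IsRigid.of_field {K : Type u} [Field K] [Algebra k K] (E : Bdl C K)
    (P : C.R1 →ₐ[k] K) : E.IsRigid P := by
  obtain ⟨i, -, hi⟩ := Finset.exists_ne_zero_of_sum_ne_zero
    (s := Finset.univ) (f := E.diagVal P) (by rw [E.sum_diagVal]; exact one_ne_zero)
  exact isRigid_of_diag (isUnit_iff_ne_zero.mpr hi)

theorem span_diag (E : Bdl C A) (P : C.R1 →ₐ[k] A) :
    Ideal.span (Set.range (E.diagVal P)) = ⊤ :=
  (Ideal.eq_top_iff_one _).mpr
    (E.sum_diagVal P ▸ Ideal.sum_mem _ fun i _ => Ideal.subset_span ⟨i, rfl⟩)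

/-- Rigidity is invariant under isomorphism. -/
theorem IsRigid.congr {E E' : Bdl C A} {P : C.R1 →ₐ[k] A} (h : E ≈ E') (hr : E.IsRigid P) :
    E'.IsRigid P := hr.of_iso h.some

end Bdl

/-- The localisation away from an element as a map of algebras over the base field. -/
abbrev awayHom {A : Type u} [CommRing A] [Algebra k A] (r : A) :
    A →ₐ[k] Localization.Away r :=
  IsScalarTower.toAlgHom k A (Localization.Away r)

section Point

variable {C : Scheme.{u}} {c : C ⟶ Spec (CommRingCat.of k)}
  {ε : SchemeHomOver (𝟙 (Spec (CommRingCat.of k))) c} {P : Pres c ε}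

theorem overAlg_comp {A A' A'' : Type u} [CommRing A] [Algebra k A] [CommRing A'] [Algebra k A']
    [CommRing A''] [Algebra k A''] (f : A →ₐ[k] A') (g : A' →ₐ[k] A'') :
    (overAlg (g.comp f)).1 = (overAlg g).1 ≫ (overAlg f).1 := by
  show Spec.map _ = Spec.map _ ≫ Spec.map _
  rw [← Spec.map_comp]
  rfl

theorem postComp_overAlg_comp {D : Scheme.{u}} {d : D ⟶ Spec (CommRingCat.of k)}
    {A A' A'' : Type u} [CommRing A] [Algebra k A] [CommRing A'] [Algebra k A']
    [CommRing A''] [Algebra k A''] (s : SchemeHomOver (tA (k := k) A) d) (f : A →ₐ[k] A')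
    (g : A' →ₐ[k] A'') :
    postComp (postComp s (overAlg f)) (overAlg g) = postComp s (overAlg (g.comp f)) := by
  refine Subtype.ext ?_
  show (overAlg g).1 ≫ (overAlg f).1 ≫ s.1 = (overAlg (g.comp f)).1 ≫ s.1
  rw [overAlg_comp, Category.assoc]

/-- Points agreeing on a cover by basic opens are equal. -/
theorem eq_of_cover {D : Scheme.{u}} {d : D ⟶ Spec (CommRingCat.of k)} {A : Type u} [CommRing A]
    [Algebra k A] {ι : Type u} (r : ι → A) (hr : Ideal.span (Set.range r) = ⊤)
    (s s' : SchemeHomOver (tA (k := k) A) d)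
    (h : ∀ i, postComp s (overAlg (awayHom (r i))) = postComp s' (overAlg (awayHom (r i)))) :
    s = s' := by
  refine Subtype.ext
    ((Scheme.affineOpenCoverOfSpanRangeEqTop (R := CommRingCat.of A) r hr).openCover.hom_ext
    _ _ fun i => ?_)
  exact congrArg Subtype.val (h i)

namespace Bridge

variable {B : Bridge P} {D : Scheme.{u}} {a : FamilyOn B.degCut D}

/-- The point classifies the bundle after every base change making it rigid. -/
def IsPointOf (a : FamilyOn B.degCut D) {A : Type u} [CommRing A] [Algebra k A]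
    (E : Bdl P.X A) (s : SchemeHomOver (tA (k := k) A) a.t) : Prop :=
  ∀ (A' : Type u) [CommRing A'] [Algebra k A'] (f : A →ₐ[k] A'),
    (E.map f).IsRigid (P.X.cst A' P.e) → ptBdl a (postComp s (overAlg f)) ≈ E.map f

variable {A A' : Type u} [CommRing A] [Algebra k A] [CommRing A'] [Algebra k A']

/-- The point of a rigid bundle has that bundle. -/
theorem IsPointOf.ptBdl_eq {E : Bdl P.X A} {s : SchemeHomOver (tA (k := k) A) a.t}
    (h : IsPointOf a E s) (hr : E.IsRigid (P.X.cst A P.e)) : ptBdl a s ≈ E := by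
  have hid : (E.map (AlgHom.id k A)).IsRigid (P.X.cst A P.e) :=
    Bdl.IsRigid.congr (Setoid.symm (Bdl.map_id E)) hr
  have h' := Setoid.trans (h A (AlgHom.id k A) hid) (Bdl.map_id E)
  refine Setoid.trans ?_ h'
  exact B.bdl_congr (sameClass_pullbackAlong_congr _ (by
    show s.1 = (overAlg (AlgHom.id k A)).1 ≫ s.1
    exact ((congrArg (· ≫ s.1) (Spec.map_id _)).trans (Category.id_comp _)).symm))

/-- Being the point of a bundle is invariant under isomorphism. -/
theorem IsPointOf.congr {E E' : Bdl P.X A} {s : SchemeHomOver (tA (k := k) A) a.t}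
    (h : IsPointOf a E s) (e : E ≈ E') : IsPointOf a E' s := fun A' _ _ f hr =>
  Setoid.trans (h A' f (Bdl.IsRigid.congr (Setoid.symm (Bdl.map_congr f e)) hr)) (Bdl.map_congr f e)

/-- Being the point of a bundle is preserved by change of parameters. -/
theorem IsPointOf.map {E : Bdl P.X A} {s : SchemeHomOver (tA (k := k) A) a.t}
    (h : IsPointOf a E s) (f : A →ₐ[k] A') :
    IsPointOf a (E.map f) (postComp s (overAlg f)) := fun A'' _ _ g hr => by
  rw [postComp_overAlg_comp]
  exact Setoid.trans (h A'' (g.comp f) (Bdl.IsRigid.congr (Bdl.map_map f g E) hr))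
    (Setoid.symm (Bdl.map_map f g E))

/-- A bundle has at most one point of the universal family. -/
theorem IsPointOf.unique (hu : IsUniversal a) {E : Bdl P.X A}
    {s s' : SchemeHomOver (tA (k := k) A) a.t} (h : IsPointOf a E s) (h' : IsPointOf a E s') :
    s = s' := by
  refine eq_of_cover (ι := ULift.{u} (Fin E.l1.n)) (fun i => E.diagVal (P.X.cst A P.e) i.down)
    (by rw [show Set.range (fun i : ULift.{u} (Fin E.l1.n) => E.diagVal (P.X.cst A P.e) i.down) =
        Set.range (E.diagVal (P.X.cst A P.e)) from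
      Equiv.ulift.surjective.range_comp (E.diagVal (P.X.cst A P.e))];
        exact E.span_diag _) s s' fun i => ?_
  have hr : (E.map (awayHom (E.diagVal (P.X.cst A P.e) i.down))).IsRigid (P.X.cst _ P.e) :=
    E.isRigid_map_of_diag _ P.e (i := i.down)
      (IsLocalization.Away.algebraMap_isUnit (S := Localization.Away _) _)
  exact ptBdl_injective hu _ _ (Setoid.trans (h _ _ hr) (Setoid.symm (h' _ _ hr)))

/-- **Every bundle of degree zero has a point.** -/
theorem exists_isPointOf (hu : IsUniversal a) (E : Bdl P.X A) (hd : E.HasDeg 0) :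
    ∃ s : SchemeHomOver (tA (k := k) A) a.t, IsPointOf a E s := by
  let r : ULift.{u} (Fin E.l1.n) → A := fun i => E.diagVal (P.X.cst A P.e) i.down
  have hspan : Ideal.span (Set.range r) = ⊤ := by
    rw [show Set.range r = Set.range (E.diagVal (P.X.cst A P.e)) from
      Equiv.ulift.surjective.range_comp (E.diagVal (P.X.cst A P.e))]
    exact E.span_diag _
  have hrig : ∀ (i : ULift.{u} (Fin E.l1.n)),
      (E.map (awayHom (r i))).IsRigid (P.X.cst _ P.e) := fun i =>
    E.isRigid_map_of_diag _ P.e (i := i.down)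
      (IsLocalization.Away.algebraMap_isUnit (S := Localization.Away (r i)) _)
  let σ : ∀ i, SchemeHomOver (tA (k := k) (Localization.Away (r i))) a.t := fun i =>
    pointOf hu _ (hrig i) (Bdl.hasDeg_map _ hd)
  -- the local points on a further base change
  have key : ∀ (i) (A' : Type u) [CommRing A'] [Algebra k A']
      (h : Localization.Away (r i) →ₐ[k] A'),
      ptBdl a (postComp (σ i) (overAlg h)) ≈ E.map (h.comp (awayHom (r i))) := fun i A' _ _ h =>
    Setoid.trans
      (Setoid.trans (ptBdl_comp h (σ i) _ rfl) (Bdl.map_congr h (ptBdl_pointOf hu _ _ _)))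
      (Bdl.map_map _ _ E)
  let ρ : ∀ i, Spec (CommRingCat.of (Localization.Away (r i))) ⟶ Spec (CommRingCat.of A) :=
    fun i => (overAlg (awayHom (k := k) (r i))).1
  have hι : ∀ i, ρ i ≫ tA (k := k) A = tA (Localization.Away (r i)) := fun i =>
    (overAlg (awayHom (k := k) (r i))).2
  have hc : ∀ i j, pullback.fst (ρ i) (ρ j) ≫ (σ i).1 = pullback.snd (ρ i) (ρ j) ≫ (σ j).1 := by
    intro i j
    refine hom_ext_points (x := pullback.fst (ρ i) (ρ j) ≫ ρ i ≫ tA (k := k) A) (d := a.t)
      ?_ ?_ fun A' _ _ q => ?_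
    · rw [Category.assoc, (σ i).2, hι]
    · rw [Category.assoc, (σ j).2, ← hι j, ← Category.assoc, ← pullback.condition, Category.assoc]
    · let qi : SchemeHomOver (tA (k := k) A') (tA (Localization.Away (r i))) :=
        ⟨q.1 ≫ pullback.fst (ρ i) (ρ j), by rw [Category.assoc, ← hι i]; exact q.2⟩
      let qj : SchemeHomOver (tA (k := k) A') (tA (Localization.Away (r j))) :=
        ⟨q.1 ≫ pullback.snd (ρ i) (ρ j), by
          rw [Category.assoc, ← hι j, ← Category.assoc (pullback.snd _ _), ← pullback.condition,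
            Category.assoc]
          exact q.2⟩
      obtain ⟨hi, ei⟩ := exists_overAlg qi
      obtain ⟨hj, ej⟩ := exists_overAlg qj
      have hcomp : hi.comp (awayHom (r i)) = hj.comp (awayHom (r j)) := by
        have e : (overAlg (hi.comp (awayHom (r i)))).1 = (overAlg (hj.comp (awayHom (r j)))).1 := by
          rw [overAlg_comp, overAlg_comp, ei, ej]
          show (q.1 ≫ pullback.fst _ _) ≫ ρ i = (q.1 ≫ pullback.snd _ _) ≫ ρ j
          rw [Category.assoc, Category.assoc, pullback.condition]
        exact AlgHom.coe_ringHom_injective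
          (congrArg CommRingCat.Hom.hom (Spec.map_injective e))
      have e : postComp (σ i) (overAlg hi) = postComp (σ j) (overAlg hj) :=
        ptBdl_injective hu _ _ (Setoid.trans (key i A' hi)
          (by rw [hcomp]; exact Setoid.symm (key j A' hj)))
      have e' : (overAlg hi).1 ≫ (σ i).1 = (overAlg hj).1 ≫ (σ j).1 := congrArg Subtype.val e
      rw [ei, ej] at e'
      exact (Category.assoc _ _ _).symm.trans (e'.trans (Category.assoc _ _ _))
  let 𝒰 := (Scheme.affineOpenCoverOfSpanRangeEqTop (R := CommRingCat.of A) r hspan).openCover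
  let g : Spec (CommRingCat.of A) ⟶ D := 𝒰.glueMorphisms (fun i => (σ i).1) (fun i j => hc i j)
  have hg : g ≫ a.t = tA (k := k) A := 𝒰.hom_ext _ _ fun i =>
    (Category.assoc _ _ _).symm.trans ((congrArg (· ≫ a.t) (𝒰.ι_glueMorphisms _ _ i)).trans
      ((σ i).2.trans (hι i).symm))
  refine ⟨⟨g, hg⟩, fun A' _ _ f hr => ?_⟩
  obtain ⟨t, ht⟩ := exists_point hu (E.map f) hr (Bdl.hasDeg_map f hd)
  refine Setoid.trans ?_ ht
  have hspan' : Ideal.span (Set.range fun i => f (r i)) = ⊤ := by
    rw [show (Set.range fun i => f (r i)) = f '' Set.range r from Set.range_comp f r,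
      ← Ideal.map_span, hspan, Ideal.map_top]
  have heq : postComp (⟨g, hg⟩ : SchemeHomOver (tA (k := k) A) a.t) (overAlg f) = t := by
    refine eq_of_cover _ hspan' _ _ fun i => ptBdl_injective hu _ _ ?_
    let h : Localization.Away (r i) →ₐ[k] Localization.Away (f (r i)) :=
      IsLocalization.liftAlgHom (M := Submonoid.powers (r i))
        (f := (awayHom (f (r i))).comp f) fun y => by
          obtain ⟨n, hn⟩ := y.2
          show IsUnit (algebraMap A' (Localization.Away (f (r i))) (f y.1))
          rw [← hn, map_pow, map_pow]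
          exact (IsLocalization.Away.algebraMap_isUnit (f (r i))).pow n
    have hh : h.comp (awayHom (r i)) = (awayHom (f (r i))).comp f :=
      AlgHom.ext fun x => IsLocalization.lift_eq _ x
    have e1 : postComp (postComp (⟨g, hg⟩ : SchemeHomOver (tA (k := k) A) a.t) (overAlg f))
        (overAlg (awayHom (f (r i)))) = postComp (σ i) (overAlg h) := by
      rw [postComp_overAlg_comp, ← hh]
      refine Subtype.ext ?_
      show (overAlg (h.comp (awayHom (r i)))).1 ≫ g = (overAlg h).1 ≫ (σ i).1
      rw [overAlg_comp, Category.assoc]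
      exact congrArg ((overAlg h).1 ≫ ·) (𝒰.ι_glueMorphisms _ _ i)
    rw [e1]
    refine Setoid.trans (key i _ h) ?_
    rw [hh]
    exact Setoid.symm (Setoid.trans (ptBdl_comp _ t _ rfl)
      (Setoid.trans (Bdl.map_congr _ ht) (Bdl.map_map _ _ E)))
  rw [heq]

/-- The point of a bundle of degree zero. -/
def clsPoint (hu : IsUniversal a) (E : Bdl P.X A) (hd : E.HasDeg 0) :
    SchemeHomOver (tA (k := k) A) a.t :=
  (exists_isPointOf hu E hd).choose

/-- The chosen point of a bundle of degree zero is a point of it. -/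
theorem isPointOf_clsPoint (hu : IsUniversal a) (E : Bdl P.X A) (hd : E.HasDeg 0) :
    IsPointOf a E (clsPoint hu E hd) :=
  (exists_isPointOf hu E hd).choose_spec

end Bridge

end Point

end FermatAgent.Pic

end
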