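import Fermat.Agent.Pic.Props.Sum
import Fermat.Agent.Pic.Props.Connected
import Fermat.Prelude.Def_AlgebraicGeometry_RelPicardAlgEquivZeroCut

/-!
# Degree zero is fibrewise algebraic equivalence to zero

A family of degree zero is deformed to the trivial one inside the universal family pulled back to a
power of the curve; conversely the degree is constant in a family over a connected base.
-/

set_option autoImplicit false

noncomputable section

universe u

open CategoryTheory CategoryTheory.Limits AlgebraicGeometry NeronModelInfra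
  AlgebraicGeometry.RelPicard

namespace FermatAgent.Pic

variable {k : Type u} [Field k] {C : Scheme.{u}} {c : C ⟶ Spec (CommRingCat.of k)}
  {ε : SchemeHomOver (𝟙 (Spec (CommRingCat.of k))) c}

@[reassoc]
theorem baseChangeSnd_fst {R : Type u} [CommRing R] {X T T' : Scheme.{u}}
    (a : X ⟶ Spec (CommRingCat.of R)) {t : T ⟶ Spec (CommRingCat.of R)}
    {t' : T' ⟶ Spec (CommRingCat.of R)} (s : SchemeHomOver t' t) :
    baseChangeSnd a s ≫ pullback.fst a t = pullback.fst a t' :=
  (pullback.lift_fst _ _ _).trans (Category.comp_id _)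

@[reassoc]
theorem baseChangeSnd_snd {R : Type u} [CommRing R] {X T T' : Scheme.{u}}
    (a : X ⟶ Spec (CommRingCat.of R)) {t : T ⟶ Spec (CommRingCat.of R)}
    {t' : T' ⟶ Spec (CommRingCat.of R)} (s : SchemeHomOver t' t) :
    baseChangeSnd a s ≫ pullback.snd a t = pullback.snd a t' ≫ s.1 :=
  pullback.lift_snd _ _ _

/-- Two composite pullbacks of modules along equal maps agree. -/
def pullbackSquareIso {W X Y Z : Scheme.{u}} {f : W ⟶ X} {g : X ⟶ Z} {f' : W ⟶ Y} {g' : Y ⟶ Z}
    (h : f ≫ g = f' ≫ g') (M : Z.Modules) :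
    (Scheme.Modules.pullback f).obj ((Scheme.Modules.pullback g).obj M) ≅
      (Scheme.Modules.pullback f').obj ((Scheme.Modules.pullback g').obj M) :=
  (Scheme.Modules.pullbackComp _ _).app M ≪≫ (Scheme.Modules.pullbackCongr h).app M ≪≫
    ((Scheme.Modules.pullbackComp _ _).app M).symm

namespace Bridge

set_option backward.isDefEq.respectTransparency false
set_option backward.isDefEq.respectTransparency.types false

variable {P : Pres c ε} {B : Bridge P} {D : Scheme.{u}}
  {a : FamilyOn B.degCut D} (hu : IsUniversal a) (PB : PointBdls P.X P.e)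

include hu PB in
/-- **Families of degree zero are fibrewise algebraically equivalent to zero.** -/
theorem fibrewiseAlgEquivZero_of_degCut [IsAlgClosed k] [IsProper c] [IsIntegral C]
    {T : Scheme.{u}} {t : T ⟶ Spec (CommRingCat.of k)} {M : RigidifiedLineBundle c ε t}
    (hM : B.degCut.P t M) : FibrewiseAlgEquivZero M := by
  intro K _ _ s
  let _ : Algebra k K := (Spec.preimage (s ≫ t)).hom.toAlgebra
  have hs : s ≫ t = tA (k := k) K := by
    show _ = Spec.map (Spec.preimage (s ≫ t))
    rw [Spec.map_preimage]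
  let σ : SchemeHomOver (tA (k := k) K) t := ⟨s, hs⟩
  obtain ⟨q₁, ⟨e₁⟩, -⟩ := hu _ (M.pullbackAlong σ) (B.degCut.pullback_mem _ _ _ _ hM)
  obtain ⟨z, hz, -⟩ := hu (𝟙 _) (RigidifiedLineBundle.unit (c := c) (ε := ε) _)
    (B.degCut.unit_mem _)
  let τ : SchemeHomOver (tA (k := k) K) (𝟙 (Spec (CommRingCat.of k))) :=
    ⟨tA K, Category.comp_id _⟩
  obtain ⟨e₀⟩ : SameClass (a.M.pullbackAlong (postComp z τ))
      (RigidifiedLineBundle.unit (tA (k := k) K)) :=
    ((sameClass_pullbackAlong_comp _ _ _).symm.trans (hz.pullback τ)).trans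
      ⟨Scheme.Modules.pullbackUnitIso _⟩
  obtain ⟨y₁, hy₁⟩ := exists_sum_preimage hu PB q₁
  obtain ⟨y₀, hy₀⟩ := exists_sum_preimage hu PB (postComp z τ)
  let Y := curvePow c (Bdl.genus P.X)
  let S := sumMap hu PB (Bdl.genus P.X)
  have : IsProper Y.hom := isProper_curvePow c _
  have : IsIntegral Y.left := isIntegral_curvePow c _
  have : GeometricallyIntegral Y.hom := geometricallyIntegral_of_isIntegral _
  let pt : SchemeHomOver (tA (k := k) K) Y.hom →
      SchemeHomOver (𝟙 (Spec (CommRingCat.of K))) (pullback.snd Y.hom (tA (k := k) K)) :=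
    fun y => ⟨pullback.lift y.1 (𝟙 _) (y.2.trans (Category.id_comp _).symm),
      pullback.lift_snd _ _ _⟩
  let a' := fibreAt c t s
  let h' := pullback.snd Y.hom (tA (k := k) K)
  let Φ : pullback a' h' ⟶ pullback c a.t :=
    pullback.lift (pullback.fst _ _ ≫ pullback.fst _ _ ≫ pullback.fst c t)
      (pullback.snd _ _ ≫ pullback.fst _ _ ≫ S.1) (by
        simp only [Category.assoc, pullback.condition (f := c), S.2,
          pullback.condition_assoc (f := pullback.snd c t), hs]
        rw [pullback.condition (f := Y.hom)]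
        exact pullback.condition_assoc _)
  let E : pullback a' (𝟙 (Spec (CommRingCat.of K))) ⟶ pullback c (tA (k := k) K) :=
    pullback.lift (pullback.fst _ _ ≫ pullback.fst _ _ ≫ pullback.fst c t) (pullback.snd _ _) (by
      simp only [Category.assoc, pullback.condition (f := c),
        pullback.condition_assoc (f := pullback.snd c t), hs]
      exact (pullback.condition_assoc _).trans (congrArg _ (Category.id_comp _)))
  have key : ∀ y, baseChangeSnd a' (pt y) ≫ Φ = E ≫ baseChangeSnd c (postComp S y) := fun y => by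
    apply pullback.hom_ext
    · refine (Category.assoc _ _ _).trans ((congrArg _ (pullback.lift_fst _ _ _)).trans
        ((pullback.lift_fst_assoc _ _ _ _).trans ?_))
      refine Eq.trans ?_ ((Category.assoc _ _ _).trans ((congrArg _ (pullback.lift_fst _ _ _)).trans
        (pullback.lift_fst_assoc _ _ _ _))).symm
      simp
    · refine (Category.assoc _ _ _).trans ((congrArg _ (pullback.lift_snd _ _ _)).trans
        ((pullback.lift_snd_assoc _ _ _ _).trans ?_))
      refine Eq.trans ?_ ((Category.assoc _ _ _).trans ((congrArg _ (pullback.lift_snd _ _ _)).trans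
        (pullback.lift_snd_assoc _ _ _ _))).symm
      refine (Category.assoc _ _ _).trans (congrArg _ ?_)
      exact pullback.lift_fst_assoc _ _ _ _
  have hσ : E ≫ baseChangeSnd c σ = pullback.fst _ _ ≫ pullback.fst (pullback.snd c t) s := by
    apply pullback.hom_ext
    · simp [E, baseChangeSnd_fst]
    · simp only [E, baseChangeSnd_snd, σ, Category.assoc, pullback.lift_snd_assoc,
        pullback.condition (f := pullback.snd c t)]
      exact ((pullback.condition_assoc _).trans (congrArg _ (Category.id_comp _))).symm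
  refine ⟨_, h', inferInstanceAs (LocallyOfFiniteType (pullback.snd Y.hom (tA (k := k) K))),
    inferInstanceAs (GeometricallyIntegral (pullback.snd Y.hom (tA (k := k) K))),
    (Scheme.Modules.pullback Φ).obj a.M.L, a.M.isInvertible.pullback _, pt y₀, pt y₁, ⟨?_⟩, ⟨?_⟩⟩
  · refine pullbackSquareIso ((key y₀).trans (by rw [show postComp S y₀ = _ from hy₀])) a.M.L ≪≫ ?_
    exact (Scheme.Modules.pullback E).mapIso e₀ ≪≫ Scheme.Modules.pullbackUnitIso E
  · refine pullbackSquareIso ((key y₁).trans (by rw [show postComp S y₁ = _ from hy₁])) a.M.L ≪≫ ?_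
    exact (Scheme.Modules.pullback E).mapIso e₁ ≪≫ pullbackSquareIso hσ M.L

variable (B) in
/-- **Families fibrewise algebraically equivalent to zero have degree zero.** -/
theorem degCut_of_fibrewiseAlgEquivZero [IsAlgClosed k] {T : Scheme.{u}}
    {t : T ⟶ Spec (CommRingCat.of k)} {M : RigidifiedLineBundle c ε t}
    (hM : FibrewiseAlgEquivZero M) : B.degCut.P t M := by
  intro A _ _ s K _ _ _ f
  let σ : SchemeHomOver (tA (k := k) K) t := postComp s (overAlg f)
  rw [← Bdl.deg_congr (Setoid.trans
    (B.bdl_congr (sameClass_pullbackAlong_comp M s (overAlg f)).symm)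
    (B.bdl_pullback f (M.pullbackAlong s)))]
  obtain ⟨T', h, -, hgi, N', hN', t₀, t₁, ⟨e₀⟩, ⟨e₁⟩⟩ := hM K σ.1
  let x : T' ⟶ Spec (CommRingCat.of k) := h ≫ tA (k := k) K
  let y : SchemeHomOver (𝟙 (Spec (CommRingCat.of K))) h → SchemeHomOver (tA (k := k) K) x :=
    fun τ => ⟨τ.1, by rw [← Category.assoc, τ.2, Category.id_comp]⟩
  let Ψ : pullback c x ⟶ pullback (fibreAt c t σ.1) h :=
    pullback.lift (pullback.lift (pullback.lift (pullback.fst _ _) (pullback.snd _ _ ≫ h ≫ σ.1)
        (by rw [Category.assoc, Category.assoc, σ.2]; exact pullback.condition))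
        (pullback.snd _ _ ≫ h) (by rw [pullback.lift_snd, Category.assoc]))
      (pullback.snd _ _) (pullback.lift_snd _ _ _)
  let E : pullback c (tA (k := k) K) ⟶ pullback (fibreAt c t σ.1) (𝟙 (Spec (CommRingCat.of K))) :=
    pullback.lift (pullback.lift (pullback.lift (pullback.fst _ _) (pullback.snd _ _ ≫ σ.1)
        (by rw [Category.assoc, σ.2]; exact pullback.condition))
        (pullback.snd _ _) (pullback.lift_snd _ _ _))
      (pullback.snd _ _) ((pullback.lift_snd _ _ _).trans (Category.comp_id _).symm)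
  have key : ∀ τ, baseChangeSnd c (y τ) ≫ Ψ = E ≫ baseChangeSnd (fibreAt c t σ.1) τ := fun τ => by
    apply pullback.hom_ext
    · apply pullback.hom_ext
      · apply pullback.hom_ext
        · simp [Ψ, E, y, baseChangeSnd_fst]
        · simp [Ψ, E, y, baseChangeSnd_fst, baseChangeSnd_snd_assoc, reassoc_of% τ.2]
      · simp [Ψ, E, y, baseChangeSnd_fst, baseChangeSnd_snd_assoc, τ.2]
    · simp [Ψ, E, y, baseChangeSnd_snd]
  have hσ : E ≫ pullback.fst _ _ ≫ pullback.fst _ _ = baseChangeSnd c σ := by
    apply pullback.hom_ext <;> simp [E, baseChangeSnd_fst, baseChangeSnd_snd]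
  have : IsIntegral T' := GeometricallyIntegral.isIntegral_of_subsingleton h
  let N := (Scheme.Modules.pullback Ψ).obj N'
  have hN : Scheme.Modules.IsInvertible N := hN'.pullback Ψ
  have h0 : B.fibreBdl hN (y t₀) ≈ Bdl.one P.X K := by
    refine Setoid.trans ((B.iso_iff _ _ _ _ (Scheme.Modules.isInvertible_unit _)).mpr ⟨?_⟩)
      (B.unit K)
    exact pullbackSquareIso (key t₀) N' ≪≫ (Scheme.Modules.pullback E).mapIso e₀ ≪≫
      Scheme.Modules.pullbackUnitIso E
  have h1 : B.fibreBdl hN (y t₁) ≈ B.bdl (M.pullbackAlong σ) := by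
    refine (B.iso_iff _ _ _ _ _).mpr ⟨?_⟩
    refine pullbackSquareIso (key t₁) N' ≪≫ (Scheme.Modules.pullback E).mapIso e₁ ≪≫ ?_
    exact (Scheme.Modules.pullback E).mapIso ((Scheme.Modules.pullbackComp _ _).app M.L) ≪≫
      (Scheme.Modules.pullbackComp _ _).app M.L ≪≫ (Scheme.Modules.pullbackCongr hσ).app M.L
  have h2 := B.deg_fibreBdl_eq hN (y t₀) (y t₁)
  rw [Bdl.deg_congr h0, Bdl.deg_congr h1] at h2
  exact h2.trans (sub_self _)

include hu PB in
/-- **The condition of degree zero is fibrewise algebraic equivalence to zero.** -/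
theorem degCut_iff_fibrewiseAlgEquivZero [IsAlgClosed k] [IsProper c] [IsIntegral C]
    {T : Scheme.{u}} (t : T ⟶ Spec (CommRingCat.of k))
    (M : RigidifiedLineBundle c ε t) :
    B.degCut.P t M ↔ (algEquivZeroCut c ε).P t M :=
  ⟨fibrewiseAlgEquivZero_of_degCut hu PB, degCut_of_fibrewiseAlgEquivZero B⟩

end Bridge

end FermatAgent.Pic

end
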