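import Fermat.Agent.Pic.Props.Points
import Fermat.Agent.Pic.PointBundles

/-!
# The map from the curve to a universal family of degree zero

A point goes to the class of its bundle minus that of the marked point; the map is glued from the
two charts of a presentation.
-/

set_option autoImplicit false

noncomputable section

universe u

open CategoryTheory CategoryTheory.Limits AlgebraicGeometry NeronModelInfra
  AlgebraicGeometry.RelPicard

namespace FermatAgent.Pic

variable {k : Type u} [Field k] {C : Scheme.{u}} {c : C ⟶ Spec (CommRingCat.of k)}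
  {ε : SchemeHomOver (𝟙 (Spec (CommRingCat.of k))) c}

namespace Pres

variable (P : Pres c ε)

/-- The cover by the two charts, the first one indexed by `true`. -/
def chartsCover : C.OpenCover where
  I₀ := Bool
  X := fun b => Bool.rec (Spec (CommRingCat.of P.X.R1)) (Spec (CommRingCat.of P.X.R0)) b
  f := fun b => Bool.rec P.i1 P.i0 b
  mem₀ := by
    rw [Scheme.presieve₀_mem_precoverage_iff]
    refine ⟨fun x => ?_, fun b => ?_⟩
    · rcases (P.cover.ge (Set.mem_univ x)) with h | h
      · exact ⟨true, h⟩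
      · exact ⟨false, h⟩
    · cases b
      · exact P.open1
      · exact P.open0

end Pres

section PtDiff

variable {X : Curve2 k} {e : X.R1 →ₐ[k] k} (PB : PointBdls X e) {A A' : Type u} [CommRing A]
  [Algebra k A] [CommRing A'] [Algebra k A']

/-- The bundle of a point of the first chart minus that of the marked point. -/
def PointBdls.diff0 (Q : X.R0 →ₐ[k] A) : Bdl X A := (PB.pt0 Q).tensor (PB.pt1 (X.cst A e)).dual

/-- The bundle of a point of the second chart minus that of the marked point. -/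
def PointBdls.diff1 (Q : X.R1 →ₐ[k] A) : Bdl X A := (PB.pt1 Q).tensor (PB.pt1 (X.cst A e)).dual

/-- The bundle of the constant marked point commutes with change of parameters. -/
theorem PointBdls.map_cst (f : A →ₐ[k] A') :
    (PB.pt1 (X.cst A e)).map f ≈ PB.pt1 (X.cst A' e) := by
  refine Setoid.trans (PB.map1 f _) ?_
  rw [X.comp_cst]

theorem PointBdls.diff0_map (f : A →ₐ[k] A') (Q : X.R0 →ₐ[k] A) :
    (PB.diff0 Q).map f ≈ PB.diff0 (f.comp Q) :=
  Setoid.trans (Bdl.map_tensor f _ _) (Bdl.tensor_congr (PB.map0 f Q)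
    (Setoid.trans (Bdl.map_dual f _) (Bdl.dual_congr (PB.map_cst f))))

theorem PointBdls.diff1_map (f : A →ₐ[k] A') (Q : X.R1 →ₐ[k] A) :
    (PB.diff1 Q).map f ≈ PB.diff1 (f.comp Q) :=
  Setoid.trans (Bdl.map_tensor f _ _) (Bdl.tensor_congr (PB.map1 f Q)
    (Setoid.trans (Bdl.map_dual f _) (Bdl.dual_congr (PB.map_cst f))))

theorem PointBdls.diff0_deg [IsAlgClosed k] (Q : X.R0 →ₐ[k] A) : (PB.diff0 Q).HasDeg 0 := by
  simpa [PointBdls.diff0] using
    Bdl.hasDeg_tensor (PB.deg0 Q) (Bdl.hasDeg_dual (PB.deg1 (X.cst A e)))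

theorem PointBdls.diff1_deg [IsAlgClosed k] (Q : X.R1 →ₐ[k] A) : (PB.diff1 Q).HasDeg 0 := by
  simpa [PointBdls.diff1] using
    Bdl.hasDeg_tensor (PB.deg1 Q) (Bdl.hasDeg_dual (PB.deg1 (X.cst A e)))

theorem PointBdls.diff_agree (Q : X.R01 →ₐ[k] A) :
    PB.diff0 (Q.comp (IsScalarTower.toAlgHom k X.R0 X.R01)) ≈
      PB.diff1 (Q.comp (IsScalarTower.toAlgHom k X.R1 X.R01)) :=
  Bdl.tensor_congr (PB.agree Q) (Setoid.refl _)

end PtDiff

namespace Bridge

variable {P : Pres c ε} {B : Bridge P} {D : Scheme.{u}}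
  {a : FamilyOn B.degCut D} (hu : IsUniversal a) (PB : PointBdls P.X P.e) [IsAlgClosed k]

/-- The map on the first chart. -/
def chartPt0 : SchemeHomOver (tA (k := k) P.X.R0) a.t :=
  clsPoint hu (PB.diff0 (AlgHom.id k P.X.R0)) (PB.diff0_deg _)

/-- The map on the second chart. -/
def chartPt1 : SchemeHomOver (tA (k := k) P.X.R1) a.t :=
  clsPoint hu (PB.diff1 (AlgHom.id k P.X.R1)) (PB.diff1_deg _)

theorem isPointOf_chartPt0 {A : Type u} [CommRing A] [Algebra k A] (Q : P.X.R0 →ₐ[k] A) :
    IsPointOf a (PB.diff0 Q) (postComp (chartPt0 hu PB) (overAlg Q)) := by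
  refine ((isPointOf_clsPoint hu _ _).map Q).congr ?_
  simpa using PB.diff0_map Q (AlgHom.id k P.X.R0)

theorem isPointOf_chartPt1 {A : Type u} [CommRing A] [Algebra k A] (Q : P.X.R1 →ₐ[k] A) :
    IsPointOf a (PB.diff1 Q) (postComp (chartPt1 hu PB) (overAlg Q)) := by
  refine ((isPointOf_clsPoint hu _ _).map Q).congr ?_
  simpa using PB.diff1_map Q (AlgHom.id k P.X.R1)

theorem chartPt_agree :
    Spec.map (CommRingCat.ofHom (algebraMap P.X.R0 P.X.R01)) ≫ (chartPt0 hu PB).1 =
      Spec.map (CommRingCat.ofHom (algebraMap P.X.R1 P.X.R01)) ≫ (chartPt1 hu PB).1 :=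
  congrArg Subtype.val (IsPointOf.unique hu
    ((isPointOf_chartPt0 hu PB
      ((AlgHom.id k _).comp (IsScalarTower.toAlgHom k P.X.R0 P.X.R01))).congr
      (PB.diff_agree (AlgHom.id k P.X.R01)))
    (isPointOf_chartPt1 hu PB ((AlgHom.id k _).comp (IsScalarTower.toAlgHom k P.X.R1 P.X.R01))))

/-- The map on a chart. -/
def chartMap : ∀ b : Bool, P.chartsCover.X b ⟶ D :=
  fun b => Bool.rec (chartPt1 hu PB).1 (chartPt0 hu PB).1 b

/-- The maps of the two charts glue to a map from the curve to the universal family. -/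
theorem exists_curveMap : ∃ φ : C ⟶ D,
    P.i0 ≫ φ = (chartPt0 hu PB).1 ∧ P.i1 ≫ φ = (chartPt1 hu PB).1 := by
  have := P.open0
  have := P.open1
  have h01 : pullback.fst P.i0 P.i1 ≫ (chartPt0 hu PB).1 =
      pullback.snd P.i0 P.i1 ≫ (chartPt1 hu PB).1 := by
    rw [← cancel_epi P.overlap.isoPullback.hom, IsPullback.isoPullback_hom_fst_assoc,
      IsPullback.isoPullback_hom_snd_assoc]
    exact chartPt_agree hu PB
  have h10 : pullback.fst P.i1 P.i0 ≫ (chartPt1 hu PB).1 =
      pullback.snd P.i1 P.i0 ≫ (chartPt0 hu PB).1 := by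
    rw [← cancel_epi (pullbackSymmetry P.i0 P.i1).hom, pullbackSymmetry_hom_comp_fst_assoc,
      pullbackSymmetry_hom_comp_snd_assoc]
    exact h01.symm
  have h00 : pullback.fst P.i0 P.i0 = pullback.snd P.i0 P.i0 :=
    (cancel_mono P.i0).mp pullback.condition
  have h11 : pullback.fst P.i1 P.i1 = pullback.snd P.i1 P.i1 :=
    (cancel_mono P.i1).mp pullback.condition
  refine ⟨P.chartsCover.glueMorphisms (chartMap hu PB) ?_, ?_, ?_⟩
  · intro x y
    cases x <;> cases y
    · show pullback.fst P.i1 P.i1 ≫ (chartPt1 hu PB).1 =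
        pullback.snd P.i1 P.i1 ≫ (chartPt1 hu PB).1
      rw [h11]
    · exact h10
    · exact h01
    · show pullback.fst P.i0 P.i0 ≫ (chartPt0 hu PB).1 =
        pullback.snd P.i0 P.i0 ≫ (chartPt0 hu PB).1
      rw [h00]
  · exact P.chartsCover.ι_glueMorphisms (chartMap hu PB) _ true
  · exact P.chartsCover.ι_glueMorphisms (chartMap hu PB) _ false

/-- The map from the curve to the universal family, over the base. -/
def curveMap : SchemeHomOver c a.t :=
  ⟨(exists_curveMap hu PB).choose, P.chartsCover.hom_ext _ _ fun b => by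
    obtain ⟨h0, h1⟩ := (exists_curveMap hu PB).choose_spec
    cases b
    · show P.i1 ≫ (exists_curveMap hu PB).choose ≫ a.t = P.i1 ≫ c
      rw [← Category.assoc, h1, (chartPt1 hu PB).2, P.over1]
    · show P.i0 ≫ (exists_curveMap hu PB).choose ≫ a.t = P.i0 ≫ c
      rw [← Category.assoc, h0, (chartPt0 hu PB).2, P.over0]⟩

/-- The map sends a point of the first chart to the class of its bundle minus the marked one. -/
theorem isPointOf_curveMap0 {A : Type u} [CommRing A] [Algebra k A]
    (q : SchemeHomOver (tA (k := k) A) c) (Q : P.X.R0 →ₐ[k] A)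
    (h : q.1 = (overAlg Q).1 ≫ P.i0) :
    IsPointOf a (PB.diff0 Q) (postComp (curveMap hu PB) q) := by
  rw [show postComp (curveMap hu PB) q = postComp (chartPt0 hu PB) (overAlg Q) from Subtype.ext ?_]
  · exact isPointOf_chartPt0 hu PB Q
  · show q.1 ≫ _ = (overAlg Q).1 ≫ _
    rw [h, Category.assoc]
    exact congrArg (_ ≫ ·) (exists_curveMap hu PB).choose_spec.1

/-- The map sends a point of the second chart to the class of its bundle minus the marked one. -/
theorem isPointOf_curveMap1 {A : Type u} [CommRing A] [Algebra k A]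
    (q : SchemeHomOver (tA (k := k) A) c) (Q : P.X.R1 →ₐ[k] A)
    (h : q.1 = (overAlg Q).1 ≫ P.i1) :
    IsPointOf a (PB.diff1 Q) (postComp (curveMap hu PB) q) := by
  rw [show postComp (curveMap hu PB) q = postComp (chartPt1 hu PB) (overAlg Q) from Subtype.ext ?_]
  · exact isPointOf_chartPt1 hu PB Q
  · show q.1 ≫ _ = (overAlg Q).1 ≫ _
    rw [h, Category.assoc]
    exact congrArg (_ ≫ ·) (exists_curveMap hu PB).choose_spec.2

end Bridge

end FermatAgent.Pic

end
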