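import Fermat.Agent.AV.Places

/-!
# Products of integral schemes over an algebraically closed field

They are integral; so an integral scheme over an algebraically closed field is geometrically
integral.
-/

set_option autoImplicit false

noncomputable section

open CategoryTheory CategoryTheory.Limits AlgebraicGeometry TensorProduct

universe u

namespace FermatAgent.Pic

variable {k : Type u} [Field k] [IsAlgClosed k]

theorem isIntegral_pullback_affine {U W : Scheme.{u}} [IsAffine U] [IsAffine W] [IsIntegral U]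
    [IsIntegral W] (f : U ⟶ Spec (CommRingCat.of k)) (g : W ⟶ Spec (CommRingCat.of k)) :
    IsIntegral (pullback f g) := by
  let φ := Spec.preimage (U.isoSpec.inv ≫ f)
  let ψ := Spec.preimage (W.isoSpec.inv ≫ g)
  let _ : Algebra k Γ(U, ⊤) := φ.hom.toAlgebra
  let _ : Algebra k Γ(W, ⊤) := ψ.hom.toAlgebra
  let a := Spec.map (CommRingCat.ofHom (algebraMap k Γ(U, ⊤)))
  let b := Spec.map (CommRingCat.ofHom (algebraMap k Γ(W, ⊤)))
  have ha : f ≫ 𝟙 _ = U.isoSpec.hom ≫ a := by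
    rw [Category.comp_id]
    show f = U.isoSpec.hom ≫ Spec.map φ
    rw [Spec.map_preimage, Iso.hom_inv_id_assoc]
  have hb : g ≫ 𝟙 _ = W.isoSpec.hom ≫ b := by
    rw [Category.comp_id]
    show g = W.isoSpec.hom ≫ Spec.map ψ
    rw [Spec.map_preimage, Iso.hom_inv_id_assoc]
  have : IsIntegral (Spec (CommRingCat.of (Γ(U, ⊤) ⊗[k] Γ(W, ⊤)))) := inferInstance
  let m : pullback f g ⟶ pullback a b :=
    pullback.map f g a b U.isoSpec.hom W.isoSpec.hom (𝟙 _) ha hb
  exact IsIntegral.of_isIso ((pullbackSpecIso k Γ(U, ⊤) Γ(W, ⊤)).inv ≫ inv m)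

/-- A scheme covered by integral opens with a common point is integral. -/
theorem isIntegral_of_openCover_of_point {X : Scheme.{u}} (𝒰 : X.OpenCover) (p : X)
    (h : ∀ i, Nonempty (𝒰.X i) → IsIntegral (𝒰.X i) ∧ p ∈ Set.range (𝒰.f i)) :
    IsIntegral X := by
  have : Nonempty X := ⟨p⟩
  have : ∀ i, AlgebraicGeometry.IsReduced (𝒰.X i) := fun i => by
    rcases isEmpty_or_nonempty (𝒰.X i) with he | hne
    · have : ∀ x : 𝒰.X i, _root_.IsReduced ((𝒰.X i).presheaf.stalk x) := fun x => he.elim x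
      exact isReduced_of_isReduced_stalk _
    · have := (h i hne).1
      exact isReduced_of_isIntegral _
  have : AlgebraicGeometry.IsReduced X := IsReduced.of_openCover X 𝒰
  have hirr : ∀ i, Nonempty (𝒰.X i) → IsPreirreducible (Set.range (𝒰.f i)) := fun i hne => by
    have := (h i hne).1
    rw [← Set.image_univ]
    exact PreirreducibleSpace.isPreirreducible_univ.image _ (𝒰.f i).continuous.continuousOn
  have hopen : ∀ i, IsOpen (Set.range (𝒰.f i)) := fun i => (𝒰.f i).isOpenEmbedding.isOpen_range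
  have : PreirreducibleSpace X := ⟨fun A B hA hB hane hbne => by
    obtain ⟨a, -, ha⟩ := hane
    obtain ⟨b, -, hb⟩ := hbne
    obtain ⟨i, a', hi⟩ := 𝒰.exists_eq a
    obtain ⟨j, b', hj⟩ := 𝒰.exists_eq b
    obtain ⟨q, -, hqA, hqj⟩ := hirr i ⟨a'⟩ A (Set.range (𝒰.f j)) hA (hopen j)
      ⟨a, ⟨_, hi⟩, ha⟩ ⟨p, (h i ⟨a'⟩).2, (h j ⟨b'⟩).2⟩
    obtain ⟨r, -, hr⟩ := hirr j ⟨b'⟩ A B hA hB ⟨q, hqj, hqA⟩ ⟨b, ⟨_, hj⟩, hb⟩
    exact ⟨r, trivial, hr⟩⟩
  have : IrreducibleSpace X := ⟨inferInstance⟩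
  exact isIntegral_of_irreducibleSpace_of_isReduced X

/-- **The product of integral schemes over an algebraically closed field is integral.** -/
theorem isIntegral_pullback_of_isAlgClosed {X Z : Scheme.{u}} [IsIntegral X] [IsIntegral Z]
    (f : X ⟶ Spec (CommRingCat.of k)) (g : Z ⟶ Spec (CommRingCat.of k)) :
    IsIntegral (pullback f g) := by
  let U := X.affineCover
  let W := Z.affineCover
  obtain ⟨p, hp₁, hp₂⟩ := Scheme.Pullback.exists_preimage_pullback (f := f) (g := g)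
    (genericPoint X) (genericPoint Z) (Subsingleton.elim _ _)
  have hne : ∀ i, Nonempty (U.X i) ↔ genericPoint X ∈ Set.range (U.f i) := fun i =>
    ⟨fun ⟨y⟩ => ((genericPoint_spec X).mem_open_set_iff
      (U.f i).isOpenEmbedding.isOpen_range).2 ⟨U.f i y, trivial, y, rfl⟩, fun ⟨y, _⟩ => ⟨y⟩⟩
  have hneW : ∀ j, Nonempty (W.X j) ↔ genericPoint Z ∈ Set.range (W.f j) := fun j =>
    ⟨fun ⟨y⟩ => ((genericPoint_spec Z).mem_open_set_iff
      (W.f j).isOpenEmbedding.isOpen_range).2 ⟨W.f j y, trivial, y, rfl⟩, fun ⟨y, _⟩ => ⟨y⟩⟩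
  let 𝒱 := Scheme.Pullback.openCoverOfLeftRight U W f g
  refine isIntegral_of_openCover_of_point 𝒱 p fun q hq => ?_
  obtain ⟨y⟩ := hq
  have h₁ : Nonempty (U.X q.1) := ⟨pullback.fst (U.f q.1 ≫ f) (W.f q.2 ≫ g) y⟩
  have h₂ : Nonempty (W.X q.2) := ⟨pullback.snd (U.f q.1 ≫ f) (W.f q.2 ≫ g) y⟩
  have : IsIntegral (U.X q.1) := isIntegral_of_isOpenImmersion (U.f q.1)
  have : IsIntegral (W.X q.2) := isIntegral_of_isOpenImmersion (W.f q.2)
  refine ⟨isIntegral_pullback_affine _ _, ?_⟩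
  show p ∈ Set.range (pullback.map _ _ _ _ (U.f q.1) (W.f q.2) (𝟙 _)
    (Category.comp_id (U.f q.1 ≫ f)) (Category.comp_id (W.f q.2 ≫ g)))
  rw [Scheme.Pullback.range_map]
  refine ⟨Set.mem_preimage.2 ?_, Set.mem_preimage.2 ?_⟩
  · rw [hp₁]; exact (hne _).1 h₁
  · rw [hp₂]; exact (hneW _).1 h₂

/-- An integral scheme over an algebraically closed field is geometrically integral. -/
theorem geometricallyIntegral_of_isIntegral {X : Scheme.{u}} [IsIntegral X]
    (f : X ⟶ Spec (CommRingCat.of k)) : GeometricallyIntegral f := by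
  refine ⟨fun K _ y Z fst snd h => ?_⟩
  have := isIntegral_pullback_of_isAlgClosed f y
  exact IsIntegral.of_isIso h.isoPullback.inv

end FermatAgent.Pic

end
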