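import Fermat.Agent.Pic.Props.CurveMap
import Fermat.Agent.Pic.Props.GeomIntegral
import Fermat.Agent.Pic.Rep.Surjected

/-!
# The Picard scheme is surjected by a power of the curve

The sum of `genus` points minus as many copies of the marked point gives a surjection from a power
of the curve; hence a universal family of degree zero lives on a proper geometrically connected
scheme.
-/

set_option autoImplicit false

noncomputable section

universe u

open CategoryTheory CategoryTheory.Limits AlgebraicGeometry NeronModelInfra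
  AlgebraicGeometry.RelPicard

namespace FermatAgent.Pic

variable {k : Type u} [Field k] {C : Scheme.{u}} {c : C ⟶ Spec (CommRingCat.of k)}
  {ε : SchemeHomOver (𝟙 (Spec (CommRingCat.of k))) c}

variable (c) in
/-- The fibre powers of the curve. -/
def curvePow : ℕ → Over (Spec (CommRingCat.of k))
  | 0 => Over.mk (𝟙 _)
  | n + 1 => Over.mk (pullback.fst c (curvePow n).hom ≫ c)

variable (c) in
/-- The powers of a proper curve are proper. -/
theorem isProper_curvePow [IsProper c] : ∀ n, IsProper (curvePow c n).hom
  | 0 => inferInstanceAs (IsProper (𝟙 _))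
  | n + 1 => by
    have := isProper_curvePow n
    exact inferInstanceAs (IsProper (pullback.fst c (curvePow c n).hom ≫ c))

variable (c) in
/-- The powers of an integral curve over an algebraically closed field are integral. -/
theorem isIntegral_curvePow [IsAlgClosed k] [IsIntegral C] : ∀ n, IsIntegral (curvePow c n).left
  | 0 => inferInstanceAs (IsIntegral (Spec (CommRingCat.of k)))
  | n + 1 => by
    have := isIntegral_curvePow n
    exact isIntegral_pullback_of_isAlgClosed c (curvePow c n).hom

theorem geometricallyConnected_of_integral {X S : Scheme.{u}} (f : X ⟶ S)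
    [GeometricallyIntegral f] : GeometricallyConnected f :=
  ⟨fun K _ y Z fst snd h => by
    have := GeometricallyIntegral.geometrically_isIntegral (f := f) y fst snd h
    infer_instance⟩

namespace Bridge

variable {P : Pres c ε} {B : Bridge P} {D : Scheme.{u}}
  {a : FamilyOn B.degCut D} (hu : IsUniversal a) (PB : PointBdls P.X P.e) [IsAlgClosed k]

omit [IsAlgClosed k] in
theorem add_rigid {A : Type u} [CommRing A] [Algebra k A]
    (s s' : SchemeHomOver (tA (k := k) A) a.t) :
    ((ptBdl a s).tensor (ptBdl a s')).IsRigid (P.X.cst A P.e) :=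
  (ptBdl_rigid _).tensor (ptBdl_rigid _)

theorem add_deg {A : Type u} [CommRing A] [Algebra k A]
    (s s' : SchemeHomOver (tA (k := k) A) a.t) :
    ((ptBdl a s).tensor (ptBdl a s')).HasDeg 0 := by
  simpa using Bdl.hasDeg_tensor (ptBdl_deg s) (ptBdl_deg s')

/-- The sum of two points. -/
def addMap : PointMap (k := k) (pullback.fst a.t a.t ≫ a.t) a.t where
  app A _ _ q := pointOf hu ((ptBdl a (fstPt q)).tensor (ptBdl a (sndPt q)))
    (add_rigid _ _) (add_deg _ _)
  natural A A' _ _ _ _ f q q' h := by
    set s := pointOf hu ((ptBdl a (fstPt q)).tensor (ptBdl a (sndPt q))) _ _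
    set s' := pointOf hu ((ptBdl a (fstPt q')).tensor (ptBdl a (sndPt q'))) _ _
    let w : SchemeHomOver (tA (k := k) A') a.t := postComp s (overAlg f)
    show s'.1 = w.1
    refine congrArg Subtype.val (ptBdl_injective hu s' w ?_)
    refine Setoid.trans (ptBdl_pointOf hu _ _ _) (Setoid.symm ?_)
    refine Setoid.trans (ptBdl_comp f s w rfl)
      (Setoid.trans (Bdl.map_congr f (ptBdl_pointOf hu _ _ _)) ?_)
    refine Setoid.trans (Bdl.map_tensor f _ _) (Bdl.tensor_congr ?_ ?_)
    · exact Setoid.symm (ptBdl_comp f _ _ (by simp [fstPt, h]))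
    · exact Setoid.symm (ptBdl_comp f _ _ (by simp [sndPt, h]))

theorem ptBdl_addMap {A : Type u} [CommRing A] [Algebra k A]
    (q : SchemeHomOver (tA (k := k) A) (pullback.fst a.t a.t ≫ a.t)) :
    ptBdl a (postComp (addMap hu).hom q) ≈ (ptBdl a (fstPt q)).tensor (ptBdl a (sndPt q)) :=
  Setoid.trans (B.bdl_congr (sameClass_pullbackAlong_congr _ ((addMap hu).comp_hom A q)))
    (ptBdl_pointOf hu _ (add_rigid _ _) (add_deg _ _))

/-- The marked origin of the family. -/
def zeroPt : SchemeHomOver (𝟙 (Spec (CommRingCat.of k))) a.t :=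
  (hu (𝟙 _) (RigidifiedLineBundle.unit (c := c) (ε := ε) _) (B.degCut.unit_mem _)).choose

omit [IsAlgClosed k] in
theorem ptBdl_zeroPt {A : Type u} [CommRing A] [Algebra k A]
    (q : SchemeHomOver (tA (k := k) A) (𝟙 (Spec (CommRingCat.of k)))) :
    ptBdl a (postComp (zeroPt hu) q) ≈ Bdl.one P.X A :=
  ptBdl_zero (zeroPt hu)
    (hu (𝟙 _) (RigidifiedLineBundle.unit (c := c) (ε := ε) _)
      (B.degCut.unit_mem _)).choose_spec.1
    _ (by show q.1 ≫ _ = _; rw [show q.1 = tA (k := k) A from (Category.comp_id _).symm.trans q.2])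

/-- The sum map from a power of the curve. -/
def sumMap : ∀ n, SchemeHomOver (curvePow c n).hom a.t
  | 0 => ⟨(zeroPt hu).1, (zeroPt hu).2⟩
  | n + 1 => ⟨pullback.map c (curvePow c n).hom a.t a.t (curveMap hu PB).1 (sumMap n).1 (𝟙 _)
      (by rw [Category.comp_id, (curveMap hu PB).2]) (by rw [Category.comp_id, (sumMap n).2]) ≫
        (addMap hu).hom.1, by
      refine (Category.assoc _ _ _).trans ((congrArg _ (addMap hu).hom.2).trans ?_)
      refine (pullback.lift_fst_assoc _ _ _ _).trans ?_
      exact (Category.assoc _ _ _).trans (congrArg _ (curveMap hu PB).2)⟩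

theorem exists_pow_point {K : Type u} [Field K] [Algebra k K] : ∀ (n : ℕ)
    (p : Fin n → (P.X.R0 →ₐ[k] K) ⊕ (P.X.R1 →ₐ[k] K)),
    ∃ y : SchemeHomOver (tA (k := k) K) (curvePow c n).hom,
      ptBdl a (postComp (sumMap hu PB n) y) ≈
        Bdl.prod fun i => Sum.elim (PB.diff0 (A := K)) (PB.diff1 (A := K)) (p i)
  | 0, _ => ⟨⟨tA K, Category.comp_id _⟩, ptBdl_zeroPt hu ⟨tA K, Category.comp_id _⟩⟩
  | n + 1, p => by
    obtain ⟨y', hy'⟩ := exists_pow_point n fun i => p i.succ
    obtain ⟨q, hq⟩ : ∃ q : SchemeHomOver (tA (k := k) K) c,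
        ptBdl a (postComp (curveMap hu PB) q) ≈
          Sum.elim (PB.diff0 (A := K)) (PB.diff1 (A := K)) (p 0) := by
      rcases p 0 with Q | Q
      · exact ⟨⟨(overAlg Q).1 ≫ P.i0, by rw [Category.assoc, P.over0]; exact (overAlg Q).2⟩,
          (isPointOf_curveMap0 hu PB _ Q rfl).ptBdl_eq (Bdl.IsRigid.of_field _ _)⟩
      · exact ⟨⟨(overAlg Q).1 ≫ P.i1, by rw [Category.assoc, P.over1]; exact (overAlg Q).2⟩,
          (isPointOf_curveMap1 hu PB _ Q rfl).ptBdl_eq (Bdl.IsRigid.of_field _ _)⟩
    have hy : q.1 ≫ c = y'.1 ≫ (curvePow c n).hom := q.2.trans y'.2.symm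
    let y : SchemeHomOver (tA (k := k) K) (curvePow c (n + 1)).hom :=
      ⟨pullback.lift q.1 y'.1 hy, by
        show _ ≫ pullback.fst _ _ ≫ c = _
        rw [pullback.lift_fst_assoc, q.2]⟩
    refine ⟨y, ?_⟩
    let r : SchemeHomOver (tA (k := k) K) (pullback.fst a.t a.t ≫ a.t) :=
      ⟨pullback.lift (postComp (curveMap hu PB) q).1 (postComp (sumMap hu PB n) y').1
        ((postComp (curveMap hu PB) q).2.trans (postComp (sumMap hu PB n) y').2.symm), by
        rw [pullback.lift_fst_assoc]; exact (postComp (curveMap hu PB) q).2⟩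
    have hr : postComp (sumMap hu PB (n + 1)) y = postComp (addMap hu).hom r := by
      refine Subtype.ext ?_
      show pullback.lift q.1 y'.1 hy ≫ pullback.map _ _ _ _ _ _ _ _ _ ≫ _ = r.1 ≫ _
      rw [← Category.assoc]
      congr 1
      apply pullback.hom_ext
      · exact (Category.assoc _ _ _).trans ((congrArg _ (pullback.lift_fst _ _ _)).trans
          ((pullback.lift_fst_assoc _ _ _ _).trans (pullback.lift_fst _ _ _).symm))
      · exact (Category.assoc _ _ _).trans ((congrArg _ (pullback.lift_snd _ _ _)).trans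
          ((pullback.lift_snd_assoc _ _ _ _).trans (pullback.lift_snd _ _ _).symm))
    rw [hr]
    refine Setoid.trans (ptBdl_addMap hu r) (Bdl.tensor_congr ?_ ?_)
    · refine Setoid.trans ?_ hq
      rw [show fstPt r = postComp (curveMap hu PB) q from Subtype.ext (pullback.lift_fst _ _ _)]
    · refine Setoid.trans ?_ hy'
      rw [show sndPt r = postComp (sumMap hu PB n) y' from Subtype.ext (pullback.lift_snd _ _ _)]

include hu PB in
/-- Every geometric point of the family comes from the power of the curve. -/
theorem exists_sum_preimage {K : Type u} [Field K] [Algebra k K] [IsAlgClosed K]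
    (s : SchemeHomOver (tA (k := k) K) a.t) :
    ∃ y : SchemeHomOver (tA (k := k) K) (curvePow c (Bdl.genus P.X)).hom,
      postComp (sumMap hu PB _) y = s := by
  obtain ⟨p, hp⟩ := PB.surj (ptBdl a s) (ptBdl_deg s)
  obtain ⟨y, hy⟩ := exists_pow_point hu PB _ p
  refine ⟨y, ptBdl_injective hu _ _ (Setoid.trans hy (Setoid.trans ?_
    (Bdl.prod_sub_prod (fun i => Sum.elim (PB.pt0 (A := K)) (PB.pt1 (A := K)) (p i))
      (PB.pt1 (P.X.cst K P.e)) _ hp)))⟩
  rw [show (fun i => Sum.elim (PB.diff0 (A := K)) (PB.diff1 (A := K)) (p i)) = fun i =>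
      (Sum.elim (PB.pt0 (A := K)) (PB.pt1 (A := K)) (p i)).tensor
        (PB.pt1 (P.X.cst K P.e)).dual from
    funext fun i => by rcases p i with Q | Q <;> rfl]

include hu PB in
/-- The sum map from the `genus`-th power of the curve to the universal family is surjective. -/
theorem surjective_sumMap : Surjective (sumMap hu PB (Bdl.genus P.X)).1 := by
  refine ⟨fun x => ?_⟩
  let K := AlgebraicClosure (D.residueField x)
  let j : Spec (CommRingCat.of K) ⟶ D :=
    Spec.map (CommRingCat.ofHom (algebraMap (D.residueField x) K)) ≫ D.fromSpecResidueField x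
  let _ : Algebra k K := (Spec.preimage (j ≫ a.t)).hom.toAlgebra
  have hj : j ≫ a.t = tA (k := k) K := by
    show _ = Spec.map (Spec.preimage (j ≫ a.t))
    rw [Spec.map_preimage]
  obtain ⟨y, hy⟩ := exists_sum_preimage hu PB (⟨j, hj⟩ : SchemeHomOver (tA (k := k) K) a.t)
  refine ⟨y.1 (IsLocalRing.closedPoint K), ?_⟩
  have h := congrArg (fun φ => φ.1 (IsLocalRing.closedPoint K)) hy
  refine h.trans ?_
  exact D.fromSpecResidueField_apply x _

include hu PB in
/-- A scheme of finite type with a universal family of degree zero is proper. -/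
theorem isProper_of_universal [IsProper c] [LocallyOfFiniteType a.t] : IsProper a.t := by
  have := surjective_sumMap hu PB
  have := isSeparated_of_universal hu
  have : IsProper ((sumMap hu PB (Bdl.genus P.X)).1 ≫ a.t) := by
    rw [(sumMap hu PB (Bdl.genus P.X)).2]; exact isProper_curvePow c _
  exact isProper_of_surjective (sumMap hu PB (Bdl.genus P.X)).1 a.t

include hu PB in
/-- A scheme with a universal family of degree zero is geometrically connected. -/
theorem geometricallyConnected_of_universal [IsIntegral C] :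
    GeometricallyConnected a.t := by
  have := surjective_sumMap hu PB
  have : GeometricallyConnected ((sumMap hu PB (Bdl.genus P.X)).1 ≫ a.t) := by
    rw [(sumMap hu PB (Bdl.genus P.X)).2]
    have := isIntegral_curvePow c (Bdl.genus P.X)
    have := geometricallyIntegral_of_isIntegral (curvePow c (Bdl.genus P.X)).hom
    exact geometricallyConnected_of_integral _
  exact geometricallyConnected_of_surjective (sumMap hu PB (Bdl.genus P.X)).1 a.t

end Bridge

end FermatAgent.Pic

end
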